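/-
LSb / Old / Basic  (helper7)

The `q`-old part of `FBar (M * q)`: the two degeneracy embeddings
`alpha, beta : FBar M → FBar (M * q)` (inclusion and `t ↦ t ^ q`), and their compatibility with a
Gauss datum `D1` on `FBar (M * q)` which reduces integral `t`-expansions coefficientwise
(hypothesis `IsGaussOne`, to be supplied by brick B1).

* `alpha_mem_iff`, `redF_alpha`: `D1` restricted along `alpha` is the level-`M` Gauss datum;
* `Vq : FRes A M →ₐ[k] FRes A M`, the `k`-linear substitution `t ↦ t ^ q` (`J_d ↦ J_d ^ q`);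
* `beta_mem_iff`, `redF_beta`: `D1.redF (beta f) = Vq (red_M f)`.
-/
import Fermat.Agent.S18lib.V.GaussU.Datum
import Fermat.Agent.S37lib.ConjNorm.FrobSeries
import Fermat.Prelude.Def_ModularCurve_HeckeOperator
import Fermat.Prelude.Thm_ModularCurve_coeffMap_qExpand
import Fermat.Agent.S18lib.Gink.Residue

set_option autoImplicit false
set_option linter.unusedSectionVars false
set_option linter.unusedVariables false

noncomputable section

namespace Fermat.Agent.LSb.Old

open AlgebraicCurve ModularCurve HahnSeries IntermediateField Fermat.Agent.S18lib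

local notation "Qb" => AlgebraicClosure ℚ

variable (M q : ℕ) [NeZero M] [NeZero q]
variable (A : ValuationSubring (AlgebraicClosure ℚ))

local notation "kA" => IsLocalRing.ResidueField A

/-- the inclusion `FBar M ⊆ FBar (M * q)` -/
abbrev alpha : FBar M →ₐ[Qb] FBar (M * q) := heckeAlphaBar Qb M q

/-- the substitution `t ↦ t ^ q`, `FBar M → FBar (M * q)` -/
abbrev beta : FBar M →ₐ[Qb] FBar (M * q) := heckeBetaBar Qb M q

theorem coe_alpha (f : FBar M) : ((alpha M q f : FBar (M * q)) : LaurentSeries Qb) = f :=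
  coe_heckeAlphaBar M q f

theorem coe_beta (f : FBar M) :
    ((beta M q f : FBar (M * q)) : LaurentSeries Qb) = qExpand Qb q (f : LaurentSeries Qb) :=
  coe_heckeBetaBar M q f

variable {M q A}

/-- **(H1)** the characterisation of the first Gauss datum of level `M * q` on integral
`t`-expansions (brick B1). -/
structure IsGaussOne (D1 : GaussDatum A (FBar (M * q)) (FRes A M)) : Prop where
  mem : ∀ (y : LaurentSeries A) (hy : V.toL A y ∈ modularFunctionFieldBar (M * q)),
    (⟨V.toL A y, hy⟩ : FBar (M * q)) ∈ D1.O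
  red : ∀ (y : LaurentSeries A) (hy : V.toL A y ∈ modularFunctionFieldBar (M * q)),
    ((D1.redF (⟨V.toL A y, hy⟩ : FBar (M * q)) : FRes A M) : LaurentSeries kA) = V.toK A y

/-! ### general facts on Gauss data -/

section General

variable {L : Type*} [Field L] {B : ValuationSubring L}
variable {F : Type*} [Field F] [Algebra L F]
variable {Fk : Type*} [Field Fk] [Algebra (IsLocalRing.ResidueField B) Fk]

/-- an element of `O` whose inverse is in `O` has nonzero reduction -/
theorem redF_ne_zero_of_mem_of_inv_mem (D : GaussDatum B F Fk) {x : F} (hx : x ∈ D.O)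
    (hxi : x⁻¹ ∈ D.O) (hx0 : x ≠ 0) : D.redF x ≠ 0 := by
  intro h
  have := D.redF_mul hx hxi
  rw [mul_inv_cancel₀ hx0, D.redF_one, h, zero_mul] at this
  exact one_ne_zero this

/-- an element outside `O` has its inverse in `O` with zero reduction -/
theorem redF_inv_eq_zero_of_not_mem (D : GaussDatum B F Fk) {x : F} (hx : x ∉ D.O) :
    x⁻¹ ∈ D.O ∧ D.redF x⁻¹ = 0 := by
  have hxi : x⁻¹ ∈ D.O := (D.O.mem_or_inv_mem x).resolve_left hx
  refine ⟨hxi, ?_⟩
  by_contra h
  have := D.inv_mem_of_redF_ne_zero h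
  rw [inv_inv] at this
  exact hx this

/-- quotients: `x * b = a`, `a b ∈ O`, `red b ≠ 0` -/
theorem redF_of_mul_eq (D : GaussDatum B F Fk) {x a b : F} (ha : a ∈ D.O)
    (hb : D.redF b ≠ 0) (h : x * b = a) : x ∈ D.O ∧ D.redF x = D.redF a / D.redF b := by
  have hbO := D.mem_of_redF_ne_zero hb
  have hbi := D.inv_mem_of_redF_ne_zero hb
  have hb0 : b ≠ 0 := by
    rintro rfl
    exact hb D.redF_zero
  have hx : x = a * b⁻¹ := by rw [← h, mul_assoc, mul_inv_cancel₀ hb0, mul_one]
  refine ⟨by rw [hx]; exact D.O.mul_mem _ _ ha hbi, ?_⟩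
  rw [hx, D.redF_mul ha hbi, D.redF_inv hb, div_eq_mul_inv]

end General

/-! ### the substitution `t ↦ t ^ p` in characteristic `p` -/

section VqC

variable (k : Type*) [Field k] (p : ℕ) [hp : Fact p.Prime] [NeZero p] [CharP k p]
variable (N : ℕ) [NeZero N]

/-- `j̄(t ^ d) ^ p = j̄(t ^ (p d))` in characteristic `p` -/
theorem qExpand_jqModC_pow_char' (d : ℕ) [NeZero d] :
    qExpand k p (qExpand k d (jqModC k)) = (qExpand k d (jqModC k)) ^ p := by
  rw [S37lib.ConjNorm.pow_char_eq_qExpand p, coeffMap_qExpand, coeffMap_jqModC]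

/-- in characteristic `p`, the function field `k(j̄(t ^ d) : d ∣ N)` is stable under `t ↦ t ^ p` -/
theorem qExpand_mem_fullC {x : LaurentSeries k} (hx : x ∈ modularFunctionFieldFullC k N) :
    qExpand k p x ∈ modularFunctionFieldFullC k N := by
  have hle : (modularFunctionFieldFullC k N).map (qExpandAlgHomC k p) ≤
      modularFunctionFieldFullC k N := by
    rw [modularFunctionFieldFullC, adjoin_map, adjoin_le_iff]
    rintro y ⟨z, ⟨d, hne, hdvd, rfl⟩, rfl⟩
    have := hne
    show qExpandAlgHomC k p (qExpand k d (jqModC k)) ∈ _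
    rw [qExpandAlgHomC_apply, qExpand_jqModC_pow_char' k p d]
    exact pow_mem (jqModCd_mem_full k N hdvd) p
  exact hle ⟨x, hx, rfl⟩

/-- the `k`-algebra endomorphism `t ↦ t ^ p` of `k(j̄(t ^ d) : d ∣ N)`, `char k = p` -/
def VqC : ↥(modularFunctionFieldFullC k N) →ₐ[k] ↥(modularFunctionFieldFullC k N) where
  toFun x := ⟨qExpand k p (x : LaurentSeries k), qExpand_mem_fullC k p N x.2⟩
  map_one' := Subtype.ext (map_one (qExpand k p))
  map_mul' _ _ := Subtype.ext (map_mul (qExpand k p) _ _)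
  map_zero' := Subtype.ext (map_zero (qExpand k p))
  map_add' _ _ := Subtype.ext (map_add (qExpand k p) _ _)
  commutes' c := Subtype.ext <| by
    show qExpand k p (algebraMap k (LaurentSeries k) c) = algebraMap k (LaurentSeries k) c
    rw [algebraMap_laurentSeries_eq_single, qExpand_single, mul_zero]

@[simp] theorem coe_VqC (x : ↥(modularFunctionFieldFullC k N)) :
    ((VqC k p N x : ↥(modularFunctionFieldFullC k N)) : LaurentSeries k) =
      qExpand k p (x : LaurentSeries k) := rfl

end VqC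

/-! ### `D1` along an embedding which is compatible on integral functions -/

section Along

variable [Fact q.Prime]
variable {D1 : GaussDatum A (FBar (M * q)) (FRes A M)}
variable (hqM : ¬ q ∣ M) (hA : A.LiesOverPrime q)
variable (φ : FBar M →+* FBar (M * q)) (ψ : FRes A M →+* FRes A M)

/-- if `φ` maps integral functions into `D1.O` with reduction given by `ψ`, the same holds on the
whole level-`M` Gauss ring -/
theorem along_mem_of_mem
    (hφ : ∀ a : V.IntRing M A, φ (V.elemL a) ∈ D1.O ∧ D1.redF (φ (V.elemL a)) = ψ (V.elemK a))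
    {f : FBar M} (hf : f ∈ (V.gaussDatum M A hqM hA).O) :
    φ f ∈ D1.O ∧ D1.redF (φ f) = ψ ((V.gaussDatum M A hqM hA).redF f) := by
  obtain ⟨a, b, hab⟩ := hf
  rw [V.gaussDatum_redF_apply M A hqM hA hab, map_div₀]
  obtain ⟨haO, hared⟩ := hφ a
  obtain ⟨hbO, hbred⟩ := hφ b
  have hb : D1.redF (φ (V.elemL b)) ≠ 0 := by
    rw [hbred]
    exact (map_ne_zero ψ).2 hab.1
  have hmul : φ f * φ (V.elemL b) = φ (V.elemL a) := by rw [← map_mul, hab.2]
  have := redF_of_mul_eq D1 haO hb hmul
  rw [hared, hbred] at this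
  exact this

theorem along_mem_iff
    (hφ : ∀ a : V.IntRing M A, φ (V.elemL a) ∈ D1.O ∧ D1.redF (φ (V.elemL a)) = ψ (V.elemK a))
    (f : FBar M) : φ f ∈ D1.O ↔ f ∈ (V.gaussDatum M A hqM hA).O := by
  refine ⟨fun h => ?_, fun h => (along_mem_of_mem hqM hA φ ψ hφ h).1⟩
  by_contra hf
  obtain ⟨hfi, hred⟩ := redF_inv_eq_zero_of_not_mem (V.gaussDatum M A hqM hA) hf
  obtain ⟨h2, h3⟩ := along_mem_of_mem hqM hA φ ψ hφ hfi
  rw [hred, map_zero, map_inv₀] at h3
  have hf0 : f ≠ 0 := by
    rintro rfl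
    exact hf (zero_mem _)
  have hφf0 : φ f ≠ 0 := (map_ne_zero _).2 hf0
  rw [map_inv₀] at h2
  exact redF_ne_zero_of_mem_of_inv_mem D1 h2 (by rwa [inv_inv]) (inv_ne_zero hφf0) h3

theorem along_redF
    (hφ : ∀ a : V.IntRing M A, φ (V.elemL a) ∈ D1.O ∧ D1.redF (φ (V.elemL a)) = ψ (V.elemK a))
    (f : FBar M) : D1.redF (φ f) = ψ ((V.gaussDatum M A hqM hA).redF f) := by
  by_cases hf : f ∈ (V.gaussDatum M A hqM hA).O
  · exact (along_mem_of_mem hqM hA φ ψ hφ hf).2
  · rw [GaussDatum.redF_of_not_mem _ hf, map_zero,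
      GaussDatum.redF_of_not_mem _ (fun h => hf ((along_mem_iff hqM hA φ ψ hφ f).1 h))]

end Along

/-! ### `D1` along `alpha` and `beta` -/

section AlphaBeta

variable [hq : Fact q.Prime]
variable {D1 : GaussDatum A (FBar (M * q)) (FRes A M)}

/-- integral modular functions of level `M`, pushed to level `M * q` by the inclusion -/
theorem alpha_elemL_mem (h1 : IsGaussOne D1) (a : V.IntRing M A) :
    alpha M q (V.elemL a) ∈ D1.O ∧ D1.redF (alpha M q (V.elemL a)) = V.elemK a := by
  have hy : V.toL A a.1 ∈ modularFunctionFieldBar (M * q) := by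
    have := (alpha M q (V.elemL a)).2
    rwa [coe_alpha] at this
  have he : alpha M q (V.elemL a) = (⟨V.toL A a.1, hy⟩ : FBar (M * q)) :=
    Subtype.ext (coe_alpha M q _)
  rw [he]
  exact ⟨h1.mem a.1 hy, Subtype.ext (h1.red a.1 hy)⟩

/-- the residue field has characteristic `q` -/
theorem charP_kRes (hA : A.LiesOverPrime q) : CharP kA q := Gink.charP_residueField A hq.out hA

/-- **the `k`-linear Frobenius substitution** `t ↦ t ^ q` of `FRes A M` (`J_d ↦ J_d ^ q`) -/
def Vq (M q : ℕ) [NeZero M] [NeZero q] [Fact q.Prime] (A : ValuationSubring (AlgebraicClosure ℚ))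
    (hA : A.LiesOverPrime q) : FRes A M →ₐ[IsLocalRing.ResidueField A] FRes A M :=
  haveI := charP_kRes hA
  VqC (IsLocalRing.ResidueField A) q M

theorem coe_Vq (hA : A.LiesOverPrime q) (x : FRes A M) :
    ((Vq M q A hA x : FRes A M) : LaurentSeries kA) = qExpand kA q (x : LaurentSeries kA) := rfl

variable (hqM : ¬ q ∣ M) (hA : A.LiesOverPrime q)

/-- **(O1)** `D1` restricted along `alpha` is the level-`M` Gauss datum -/
theorem alpha_mem_iff (h1 : IsGaussOne D1) (f : FBar M) :
    alpha M q f ∈ D1.O ↔ f ∈ (V.gaussDatum M A hqM hA).O :=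
  along_mem_iff hqM hA (alpha M q : FBar M →+* FBar (M * q)) (RingHom.id _)
    (fun a => alpha_elemL_mem h1 a) f

theorem redF_alpha (h1 : IsGaussOne D1) (f : FBar M) :
    D1.redF (alpha M q f) = (V.gaussDatum M A hqM hA).redF f :=
  along_redF hqM hA (alpha M q : FBar M →+* FBar (M * q)) (RingHom.id _)
    (fun a => alpha_elemL_mem h1 a) f

/-- integral modular functions of level `M`, pushed to level `M * q` by `t ↦ t ^ q` -/
theorem beta_elemL_mem (h1 : IsGaussOne D1) (a : V.IntRing M A) :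
    beta M q (V.elemL a) ∈ D1.O ∧ D1.redF (beta M q (V.elemL a)) = Vq M q A hA (V.elemK a) := by
  have hcoe : ((beta M q (V.elemL a) : FBar (M * q)) : LaurentSeries Qb) =
      V.toL A (qExpand A q a.1) := by
    rw [coe_beta, V.coe_elemL, V.toL, coeffMap_qExpand]
  have hy : V.toL A (qExpand A q a.1) ∈ modularFunctionFieldBar (M * q) := by
    rw [← hcoe]
    exact (beta M q (V.elemL a)).2
  have he : beta M q (V.elemL a) = (⟨V.toL A (qExpand A q a.1), hy⟩ : FBar (M * q)) :=
    Subtype.ext hcoe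
  rw [he]
  refine ⟨h1.mem _ hy, Subtype.ext ?_⟩
  rw [h1.red _ hy, coe_Vq, V.coe_elemK, V.toK, coeffMap_qExpand]

/-- **(O2)** `D1` along `beta`: membership -/
theorem beta_mem_iff (h1 : IsGaussOne D1) (f : FBar M) :
    beta M q f ∈ D1.O ↔ f ∈ (V.gaussDatum M A hqM hA).O :=
  along_mem_iff hqM hA (beta M q : FBar M →+* FBar (M * q))
    (Vq M q A hA : FRes A M →+* FRes A M) (fun a => beta_elemL_mem hA h1 a) f

/-- **(O2)** `D1` along `beta`: `red₁ (f(t ^ q)) = (red_M f)(t ^ q)` -/
theorem redF_beta (h1 : IsGaussOne D1) (f : FBar M) :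
    D1.redF (beta M q f) = Vq M q A hA ((V.gaussDatum M A hqM hA).redF f) :=
  along_redF hqM hA (beta M q : FBar M →+* FBar (M * q))
    (Vq M q A hA : FRes A M →+* FRes A M) (fun a => beta_elemL_mem hA h1 a) f

end AlphaBeta

end Fermat.Agent.LSb.Old
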