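/-
LSb / Old / PlaceIntegral  (helper7)

Regularity versus integrality in a function field `F / K` (Prelude `Place` language):

* `ord_nonneg_of_isIntegral_adjoin` (any characteristic): `z` integral over `K[y]` and `y` regular
  at the place `Q` ⟹ `z` regular at `Q`;
* `mem_integralClosure_of_forall_place` (characteristic zero, `F` finite over `K(y)`): `f` regular at
  every place at which `y` is regular ⟹ `f` integral over `K[y]`;
* the same in the "polynomial" form `∃ P : K[X][X], P.Monic ∧ eval₂ (aeval y) f P = 0`.
-/
import Fermat.Agent.ProgramR.FunctionField.Fibre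

set_option autoImplicit false
set_option linter.unusedSectionVars false
set_option linter.style.haveILetI false

noncomputable section

namespace Fermat.Agent.LSb.Old

open AlgebraicCurve IsDedekindDomain IntermediateField Polynomial Fermat.Agent.ProgramR

variable {K F : Type*} [Field K] [Field F] [Algebra K F]

/-- "`f` is integral over `K[y]`", polynomial form -/
def IsIntegralOver (K : Type*) {F : Type*} [Field K] [Field F] [Algebra K F] (y f : F) : Prop :=
  ∃ P : K[X][X], P.Monic ∧ eval₂ ((aeval y : K[X] →ₐ[K] F) : K[X] →+* F) f P = 0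

/-- polynomials in a regular element are regular -/
theorem aeval_mem_place (Q : Place K F) {y : F} (hy : y ∈ Q.toValuationSubring) (p : K[X]) :
    aeval y p ∈ Q.toValuationSubring := by
  induction p using Polynomial.induction_on' with
  | add p q hp hq => rw [map_add]; exact Q.toValuationSubring.add_mem _ _ hp hq
  | monomial n a =>
    rw [aeval_monomial]
    exact Q.toValuationSubring.mul_mem _ _ (Q.algebraMap_mem' a) (pow_mem hy n)

/-- **(I2)** an element integral over `K[y]` is regular wherever `y` is. -/
theorem mem_place_of_isIntegralOver (Q : Place K F) {y z : F} (hy : y ∈ Q.toValuationSubring)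
    (hz : IsIntegralOver K y z) : z ∈ Q.toValuationSubring := by
  obtain ⟨P, hP, hPz⟩ := hz
  let φ : K[X] →+* Q.toValuationSubring :=
    ((aeval y : K[X] →ₐ[K] F) : K[X] →+* F).codRestrict Q.toValuationSubring.toSubring
      (fun p => aeval_mem_place Q hy p)
  have hint : IsIntegral Q.toValuationSubring z := by
    refine ⟨P.map φ, hP.map φ, ?_⟩
    rw [Polynomial.eval₂_map]
    exact hPz
  obtain ⟨w, hw⟩ :=
    (IsIntegrallyClosed.isIntegral_iff (R := Q.toValuationSubring) (K := F)).mp hint
  rw [← hw]
  exact w.2

theorem ord_nonneg_of_isIntegralOver (Q : Place K F) {y z : F} (hy : 0 ≤ Q.ord y)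
    (hz : IsIntegralOver K y z) : 0 ≤ Q.ord z :=
  FF.ord_nonneg_of_mem Q (mem_place_of_isIntegralOver Q (FF.mem_of_ord_nonneg Q hy) hz)

/-- from integrality over the subalgebra `K[y] ⊆ F` to the polynomial form -/
theorem isIntegralOver_of_isIntegral_adjoin {y f : F}
    (hf : IsIntegral (Algebra.adjoin K {y}) f) : IsIntegralOver K y f := by
  obtain ⟨P, hP, hPf⟩ := hf
  -- lift the coefficients along the surjection `K[X] → K[y]`
  let ψ : K[X] →+* Algebra.adjoin K {y} :=
    ((aeval y : K[X] →ₐ[K] F).codRestrict (Algebra.adjoin K {y}) (fun p => by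
      rw [Algebra.adjoin_singleton_eq_range_aeval]
      exact ⟨p, rfl⟩) : K[X] →+* Algebra.adjoin K {y})
  have hψ : Function.Surjective ψ := by
    rintro ⟨a, ha⟩
    rw [Algebra.adjoin_singleton_eq_range_aeval] at ha
    obtain ⟨p, rfl⟩ := ha
    exact ⟨p, rfl⟩
  obtain ⟨P', hP'map, hP'deg, hP'monic⟩ := Polynomial.lifts_and_degree_eq_and_monic
    ((Polynomial.mem_lifts P).2 (Polynomial.map_surjective ψ hψ P)) hP
  refine ⟨P', hP'monic, ?_⟩
  have h1 : ((aeval y : K[X] →ₐ[K] F) : K[X] →+* F) =
      (algebraMap (Algebra.adjoin K {y}) F).comp ψ := by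
    ext <;> rfl
  rw [h1, ← Polynomial.eval₂_map, hP'map]
  exact hPf

/-- from the polynomial form to integrality over the subalgebra `K[y] ⊆ F` -/
theorem isIntegral_adjoin_of_isIntegralOver {y f : F} (hf : IsIntegralOver K y f) :
    IsIntegral (Algebra.adjoin K {y}) f := by
  obtain ⟨P, hP, hPf⟩ := hf
  let ψ : K[X] →+* Algebra.adjoin K {y} :=
    ((aeval y : K[X] →ₐ[K] F).codRestrict (Algebra.adjoin K {y}) (fun p => by
      rw [Algebra.adjoin_singleton_eq_range_aeval]
      exact ⟨p, rfl⟩) : K[X] →+* Algebra.adjoin K {y})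
  have h1 : ((aeval y : K[X] →ₐ[K] F) : K[X] →+* F) =
      (algebraMap (Algebra.adjoin K {y}) F).comp ψ := by
    ext <;> rfl
  refine ⟨P.map ψ, hP.map ψ, ?_⟩
  rw [Polynomial.eval₂_map, ← h1]
  exact hPf

section CharZero

variable [CharZero K] (y : F) [FiniteDimensional K⟮y⟯ F]

/-- **(I1)** in characteristic zero, with `F` finite over `K(y)`: a function which is regular at
every place at which `y` is regular is integral over `K[y]`. -/
theorem mem_integralClosure_of_forall_place (hy : Transcendental K y) {f : F}
    (hf : ∀ v : Place K F, y ∈ v.toValuationSubring → f ∈ v.toValuationSubring) :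
    f ∈ integralClosure (Algebra.adjoin K {y}) F := by
  haveI := FF.isDedekindDomain_intClosure y hy
  haveI := FF.isFractionRing_intClosure (K := K) y
  have hval : ∀ P : HeightOneSpectrum (integralClosure (Algebra.adjoin K {y}) F),
      P.valuation F f ≤ 1 := by
    intro P
    have h1 : y ∈ (Place.ofHeightOneSpectrum (K := K) (F := F) P).toValuationSubring := by
      have := FF.algebraMap_mem_ofHeightOneSpectrum (K := K) (F := F) P (FF.genB K y)
      rwa [FF.algebraMap_genB] at this
    have h2 := hf _ h1
    exact (Valuation.mem_valuationSubring_iff _ _).1 h2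
  obtain ⟨b, hb⟩ := HeightOneSpectrum.mem_integers_of_valuation_le_one F f hval
  rw [← hb]
  exact b.2

theorem isIntegralOver_of_forall_place (hy : Transcendental K y) {f : F}
    (hf : ∀ v : Place K F, 0 ≤ v.ord y → 0 ≤ v.ord f) : IsIntegralOver K y f :=
  isIntegralOver_of_isIntegral_adjoin (mem_integralClosure_of_forall_place y hy
    (fun v hv => FF.mem_of_ord_nonneg v (hf v (FF.ord_nonneg_of_mem v hv))))

end CharZero

end Fermat.Agent.LSb.Old
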