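/-
LSb / Old / Lift  (helper7)

**(O3) level-`M` lifts.**  `q ∤ M`, `A` over `q`.
* `exists_lift_level`: every `z ∈ FRes A M` which is regular away from the poles of `j̄` is the
  reduction of some `f ∈ FBar M`, `f ∈ O_M`, regular away from the poles of `j`.
* `IsGaussTwo D1 D2 wq` : hypotheses **(H2)+(H3)** on the second Gauss datum (brick B1).
* `exists_lift` (shape of `hlift` in `Unit.glue_abstract`, B5): such a `z` is `D1.redF f` for some
  `f ∈ FBar (M * q)`, regular away from the poles of `j`, in `D1.O ∩ D2.O`, with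
  `D2.redF f = Vq z`.
* `exists_Vq_eq_pow` : `z ^ q ∈ Vq (FRes A M)`.
-/
import Fermat.Agent.LSb.Old.Basic
import Fermat.Agent.LSb.Old.PlaceIntegral
import Fermat.Agent.S18lib.Weak.Level
import Fermat.Agent.S18lib.Weak.GenusEq
import Fermat.Agent.S37lib.B3.Unique
import Fermat.Agent.S37lib.B3.Inst
import Fermat.Agent.S37lib.C0.ResAut

set_option autoImplicit false
set_option linter.unusedSectionVars false
set_option linter.unusedVariables false
set_option linter.style.haveILetI false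

noncomputable section

namespace Fermat.Agent.LSb.Old

open AlgebraicCurve ModularCurve HahnSeries IntermediateField Polynomial
open Fermat.Agent.ProgramR Fermat.Agent.S18lib

local notation "Qb" => AlgebraicClosure ℚ

variable {M q : ℕ} [NeZero M] [NeZero q] [hq : Fact q.Prime]
variable {A : ValuationSubring (AlgebraicClosure ℚ)}

local notation "kA" => IsLocalRing.ResidueField A

/-! ### bounded poles -/

section Bounded

variable {K E : Type*} [Field K] [Field E] [Algebra K E] [HasPrincipalDivisors K E]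

/-- a function which is regular away from the poles of `x` lies in `L(m (x)_∞)` for `m ≫ 0` -/
theorem exists_mem_rr_smul_polesOf (x z : E)
    (hz : ∀ Q : Place K E, 0 ≤ Q.ord x → 0 ≤ Q.ord z) :
    ∃ m₀ : ℕ, ∀ m : ℕ, m₀ ≤ m → z ∈ riemannRochSpace ((m : ℤ) • polesOf (K := K) x) := by
  classical
  set S := (polesOf (K := K) z).support with hS
  set m₀ : ℕ := (∑ Q ∈ S, polesOf (K := K) z Q).toNat with hm₀
  have hnn : ∀ Q ∈ S, 0 ≤ polesOf (K := K) z Q := fun Q _ => by
    rw [polesOf_apply]; exact le_max_right _ _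
  have hsum : 0 ≤ ∑ Q ∈ S, polesOf (K := K) z Q := Finset.sum_nonneg hnn
  have hle : ∀ Q : Place K E, polesOf (K := K) z Q ≤ (m₀ : ℤ) := by
    intro Q
    rw [hm₀, Int.toNat_of_nonneg hsum]
    by_cases hQ : Q ∈ S
    · exact Finset.single_le_sum hnn hQ
    · rw [hS, Finsupp.mem_support_iff, not_not] at hQ
      rw [hQ]; exact hsum
  refine ⟨m₀, fun m hm => ?_⟩
  rw [mem_riemannRochSpace_iff]
  intro Q
  right
  rw [Finsupp.smul_apply, smul_eq_mul, polesOf_apply]
  rcases le_or_gt 0 (Q.ord x) with h | h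
  · rw [max_eq_right (by linarith), mul_zero, neg_zero]
    exact hz Q h
  · rw [max_eq_left (by linarith)]
    have h1 := hle Q
    rw [polesOf_apply] at h1
    have h2 : -Q.ord z ≤ (m₀ : ℤ) := le_trans (le_max_left _ _) h1
    have h3 : (m₀ : ℤ) ≤ (m : ℤ) := by exact_mod_cast hm
    have h4 : (1 : ℤ) ≤ -Q.ord x := by linarith
    have h5 : (m : ℤ) * 1 ≤ (m : ℤ) * (-Q.ord x) :=
      mul_le_mul_of_nonneg_left h4 (Nat.cast_nonneg m)
    linarith

end Bounded

/-! ### lifting at level `M` -/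

/-- **(O3)** every `z ∈ FRes A M` regular away from the poles of `j̄` lifts to a function of level
`M` in the Gauss ring, regular away from the poles of `j`. -/
theorem exists_lift_level (hqM : ¬ q ∣ M) (hA : A.LiesOverPrime q) (z : FRes A M)
    (hz : ∀ Q : Place kA (FRes A M), 0 ≤ Q.ord (Gink.jK A M) → 0 ≤ Q.ord z) :
    ∃ f : FBar M, f ∈ (V.gaussDatum M A hqM hA).O ∧
      (∀ P : Place Qb (FBar M), 0 ≤ P.ord (Gin0.jF M) → 0 ≤ P.ord f) ∧
      (V.gaussDatum M A hqM hA).redF f = z := by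
  obtain ⟨g, hF, hFk⟩ := S37lib.B3.exists_genus_level M A hqM hA
    (S37lib.B3.reductionInputsModL M A hqM hA)
  haveI := hF.hasPrincipalDivisors
  haveI := hFk.hasPrincipalDivisors
  obtain ⟨m₀, hm₀⟩ := exists_mem_rr_smul_polesOf (K := kA) (Gink.jK A M) z hz
  have hdeg := V.degree_polesOf_jF_eq M A hqM hA
  have hdegpos : (1 : ℤ) ≤ Divisor.degree (polesOf (K := Qb) (Gin0.jF M)) := by
    rw [polesOf_eq_poleDiv, Gin0.degree_poleDiv_jF]
    have : 0 < dedekindPsi M := BarField.dedekindPsi_pos M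
    exact_mod_cast this
  set m : ℕ := m₀ + 2 * g with hm
  have hmdeg : 2 * (g : ℤ) - 2 < m * Divisor.degree (polesOf (K := Qb) (Gin0.jF M)) := by
    have h1 : (m : ℤ) * 1 ≤ m * Divisor.degree (polesOf (K := Qb) (Gin0.jF M)) :=
      mul_le_mul_of_nonneg_left hdegpos (Nat.cast_nonneg m)
    have h2 : (m : ℤ) = m₀ + 2 * g := by rw [hm]; push_cast; ring
    have h3 : (0 : ℤ) ≤ m₀ := Nat.cast_nonneg m₀
    linarith
  have hφ : z ∈ riemannRochSpace ((m : ℤ) •
      polesOf (K := kA) ((V.gaussDatum M A hqM hA).redF (Gin0.jF M))) := by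
    rw [V.gaussDatum_redF_jF]
    exact hm₀ m (by rw [hm]; exact Nat.le_add_right _ _)
  obtain ⟨f, hfO, hfrr, hfred⟩ := (V.gaussDatum M A hqM hA).exists_lift_polesOf
    (V.gaussDatum_isFrameFamily_jF M A hqM hA) (Gin0.transcendental_jF M) hF hFk hdeg m hmdeg hφ
  refine ⟨f, hfO, fun P hP => ?_, hfred⟩
  rcases eq_or_ne f 0 with rfl | hf0
  · rw [Place.ord_zero]
  have := (mem_riemannRochSpace_iff.1 hfrr P).resolve_left hf0
  rw [Finsupp.smul_apply, smul_eq_mul, polesOf_apply, max_eq_right (by linarith), mul_zero,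
    neg_zero] at this
  exact this

/-! ### pushing to level `M * q` -/

/-- `alpha` maps `j` to `j` -/
theorem alpha_jF : alpha M q (Gin0.jF M) = Gin0.jF (M * q) :=
  Subtype.ext (by rw [coe_alpha, Gin0.coe_jF, Gin0.coe_jF])

/-- integrality is transported by algebra homomorphisms -/
theorem IsIntegralOver.map {K E E' : Type*} [Field K] [Field E] [Field E'] [Algebra K E]
    [Algebra K E'] (φ : E →ₐ[K] E') {y f : E} (h : IsIntegralOver K y f) :
    IsIntegralOver K (φ y) (φ f) := by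
  obtain ⟨P, hP, hPf⟩ := h
  refine ⟨P, hP, ?_⟩
  have h1 : ((aeval (φ y) : K[X] →ₐ[K] E') : K[X] →+* E') =
      (φ : E →+* E').comp ((aeval y : K[X] →ₐ[K] E) : K[X] →+* E) := by
    ext <;> simp
  rw [h1]
  have h2 := Polynomial.hom_eval₂ P ((aeval y : K[X] →ₐ[K] E) : K[X] →+* E) (φ : E →+* E') f
  rw [hPf, map_zero] at h2
  exact h2.symm

/-- a function of level `M` regular away from the poles of `j` stays so at level `M * q` -/
theorem alpha_regular {f : FBar M}
    (hf : ∀ P : Place Qb (FBar M), 0 ≤ P.ord (Gin0.jF M) → 0 ≤ P.ord f)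
    (P : Place Qb (FBar (M * q))) (hP : 0 ≤ P.ord (Gin0.jF (M * q))) :
    0 ≤ P.ord (alpha M q f) := by
  have h1 : IsIntegralOver Qb (Gin0.jF M) f :=
    isIntegralOver_of_forall_place (Gin0.jF M) (Gin0.transcendental_jF M) hf
  have h2 := h1.map (alpha M q)
  rw [alpha_jF] at h2
  exact ord_nonneg_of_isIntegralOver P hP h2

/-- **(H2)+(H3)** the second Gauss datum is the transport of the first one by an automorphism `wq`
of `FBar (M * q)` which maps the inclusion `alpha` to `beta` (`t ↦ t ^ q`) (brick B1). -/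
structure IsGaussTwo (D1 D2 : GaussDatum A (FBar (M * q)) (FRes A M))
    (wq : FBar (M * q) →+* FBar (M * q)) : Prop where
  mem_iff : ∀ x : FBar (M * q), x ∈ D2.O ↔ wq x ∈ D1.O
  redF : ∀ x : FBar (M * q), D2.redF x = D1.redF (wq x)
  wq_alpha : ∀ f : FBar M, wq (alpha M q f) = beta M q f

variable {D1 D2 : GaussDatum A (FBar (M * q)) (FRes A M)} {wq : FBar (M * q) →+* FBar (M * q)}

/-- `D2` along `alpha`: membership -/
theorem alpha_mem_iff₂ (hqM : ¬ q ∣ M) (hA : A.LiesOverPrime q) (h1 : IsGaussOne D1)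
    (h2 : IsGaussTwo D1 D2 wq) (f : FBar M) :
    alpha M q f ∈ D2.O ↔ f ∈ (V.gaussDatum M A hqM hA).O := by
  rw [h2.mem_iff, h2.wq_alpha, beta_mem_iff hqM hA h1]

/-- `D2` along `alpha`: `red₂ f = (red_M f)(t ^ q)` -/
theorem redF_alpha₂ (hqM : ¬ q ∣ M) (hA : A.LiesOverPrime q) (h1 : IsGaussOne D1)
    (h2 : IsGaussTwo D1 D2 wq) (f : FBar M) :
    D2.redF (alpha M q f) = Vq M q A hA ((V.gaussDatum M A hqM hA).redF f) := by
  rw [h2.redF, h2.wq_alpha, redF_beta hqM hA h1]

/-- **(O2)+(O3), combined** (shape of `hlift` in `Unit.glue_abstract`): every `z ∈ FRes A M`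
regular away from the poles of `j̄` is `red₁ f` for a function `f` of level `M * q` (in fact of
level `M`), regular away from the poles of `j`, integral for both Gauss valuations, with
`red₂ f = Vq z`. -/
theorem exists_lift (hqM : ¬ q ∣ M) (hA : A.LiesOverPrime q) (h1 : IsGaussOne D1)
    (h2 : IsGaussTwo D1 D2 wq) (z : FRes A M)
    (hz : ∀ Q : Place kA (FRes A M), Gink.jK A M ∈ Q.toValuationSubring →
      z ∈ Q.toValuationSubring) :
    ∃ f : FBar (M * q),
      (∀ P : Place Qb (FBar (M * q)), Gin0.jF (M * q) ∈ P.toValuationSubring →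
        f ∈ P.toValuationSubring) ∧
      f ∈ D1.O ∧ f ∈ D2.O ∧ D1.redF f = z ∧ D2.redF f = Vq M q A hA z := by
  obtain ⟨f, hfO, hfreg, hfred⟩ := exists_lift_level hqM hA z
    (fun Q hQ => FF.ord_nonneg_of_mem Q (hz Q (FF.mem_of_ord_nonneg Q hQ)))
  refine ⟨alpha M q f, fun P hP => ?_, ?_, ?_, ?_, ?_⟩
  · exact FF.mem_of_ord_nonneg P (alpha_regular hfreg P (FF.ord_nonneg_of_mem P hP))
  · exact (alpha_mem_iff hqM hA h1 f).2 hfO
  · exact (alpha_mem_iff₂ hqM hA h1 h2 f).2 hfO
  · rw [redF_alpha hqM hA h1, hfred]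
  · rw [redF_alpha₂ hqM hA h1 h2, hfred]

/-! ### `q`-th powers are in the image of `Vq` -/

/-- the coefficientwise Frobenius of `FRes A M` -/
def frobCoeff (hA : A.LiesOverPrime q) (z : FRes A M) : FRes A M :=
  haveI := charP_kRes hA
  ⟨coeffMap (frobenius kA q) (z : LaurentSeries kA), S37lib.C0.coeffMap_mem_fullC _ z.2⟩

/-- `z ^ q = Vq (z^{(q)})`, `z^{(q)}` the coefficientwise Frobenius twist -/
theorem Vq_frobCoeff (hA : A.LiesOverPrime q) (z : FRes A M) :
    Vq M q A hA (frobCoeff hA z) = z ^ q := by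
  haveI := charP_kRes hA
  apply Subtype.ext
  rw [coe_Vq]
  show qExpand kA q (coeffMap (frobenius kA q) (z : LaurentSeries kA)) = _
  rw [← S37lib.ConjNorm.pow_char_eq_qExpand q]
  rfl

theorem exists_Vq_eq_pow (hA : A.LiesOverPrime q) (z : FRes A M) :
    ∃ w : FRes A M, Vq M q A hA w = z ^ q := ⟨frobCoeff hA z, Vq_frobCoeff hA z⟩

end Fermat.Agent.LSb.Old
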