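/-
LSb / Old / Chart  (helper7)

**(CHART)**, abstract form.  Let `D` be a Gauss datum on `F / L` (characteristic zero), `O' ⊆ D.O` a
subring (the sup-norm ball `O₁ ∩ O₂` in the application), `y ∈ O'` with `y⁻¹ ∈ O'`, and assume that
reduction preserves integrality over `L[y]` and over `L[y⁻¹]` for elements of `O'`
(`Frame/Integral.lean`).  Then for `f ∈ O'`:

  `f ∈ L(a • polar(y) + b • zeros(y - c₀))  ⟹  red f ∈ L(a • polar(ȳ) + b • zeros(ȳ - c̄₀))`.

No degree bounds are needed: `f` is integral over `L[y]` and `f y^{-a}` is integral over `L[y⁻¹]`.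
-/
import Fermat.Agent.LSb.Old.PlaceIntegral
import Fermat.Agent.LSb.Old.Basic
import Fermat.Agent.S18lib.Weak.Lemmas
import Fermat.Agent.S18lib.Setup.DatumFibre
import Fermat.Agent.S18lib.Cech.CurveBasics

set_option autoImplicit false
set_option linter.unusedSectionVars false
set_option linter.unusedVariables false
set_option linter.style.haveILetI false

noncomputable section

namespace Fermat.Agent.LSb.Old

open AlgebraicCurve IntermediateField Polynomial Fermat.Agent.ProgramR Fermat.Agent.S18lib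

variable {L : Type*} [Field L] {A : ValuationSubring L}
variable {F : Type*} [Field F] [Algebra L F]
variable {Fk : Type*} [Field Fk] [Algebra (IsLocalRing.ResidueField A) Fk]

local notation "k" => IsLocalRing.ResidueField A

/-- reduction preserves integrality over `L[y]` on the subring `O'` -/
def RedIntegralOn (D : GaussDatum A F Fk) (O' : Subring F) (y : F) : Prop :=
  ∀ f : F, f ∈ O' → IsIntegralOver L y f → IsIntegralOver k (D.redF y) (D.redF f)

section Inv

omit [Algebra L F] in
theorem adjoin_inv_eq {K : Type*} [Field K] [Algebra K F] (y : F) : K⟮y⁻¹⟯ = K⟮y⟯ := by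
  apply le_antisymm
  · rw [adjoin_simple_le_iff]
    exact inv_mem (mem_adjoin_simple_self K y)
  · rw [adjoin_simple_le_iff]
    have h := inv_mem (mem_adjoin_simple_self K y⁻¹)
    rwa [inv_inv] at h

theorem transcendental_inv {K : Type*} [Field K] [Algebra K F] {y : F}
    (hy : Transcendental K y) : Transcendental K y⁻¹ := fun h => hy (by
  have := h.inv
  rwa [inv_inv] at this)

theorem finiteDimensional_inv {K : Type*} [Field K] [Algebra K F] (y : F)
    [h : FiniteDimensional K⟮y⟯ F] : FiniteDimensional K⟮y⁻¹⟯ F := by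
  have e := adjoin_inv_eq (K := K) y
  -- transport along the equality of intermediate fields
  exact e ▸ h

end Inv

/-- **(CHART), pole part, pointwise form.** -/
theorem ord_redF_ge_of_mem_polar [CharZero L] (D : GaussDatum A F Fk) (O' : Subring F)
    (hO' : ∀ f ∈ O', f ∈ D.O) (y : F) [FiniteDimensional L⟮y⟯ F] (hy : Transcendental L y)
    (hyO : y ∈ O') (hyi : y⁻¹ ∈ O')
    (hint : RedIntegralOn D O' y) (hint' : RedIntegralOn D O' y⁻¹)
    (a : ℕ) {f : F} (hfO : f ∈ O')
    (hf : ∀ v : Place L F, (a : ℤ) * min (v.ord y) 0 ≤ v.ord f)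
    (Q : Place k Fk) : (a : ℤ) * min (Q.ord (D.redF y)) 0 ≤ Q.ord (D.redF f) := by
  have hy0 : y ≠ 0 := by
    rintro rfl
    exact hy (isAlgebraic_zero)
  have hyb : D.redF y ≠ 0 :=
    redF_ne_zero_of_mem_of_inv_mem D (hO' _ hyO) (hO' _ hyi) hy0
  rcases le_or_gt 0 (Q.ord (D.redF y)) with hQ | hQ
  · -- `ȳ` regular at `Q`
    rw [min_eq_right hQ, mul_zero]
    have h1 : IsIntegralOver L y f := by
      refine isIntegralOver_of_forall_place y hy (fun v hv => ?_)
      have := hf v
      rwa [min_eq_right hv, mul_zero] at this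
    exact ord_nonneg_of_isIntegralOver Q hQ (hint f hfO h1)
  · -- `ȳ` has a pole at `Q`
    rw [min_eq_left hQ.le]
    haveI := finiteDimensional_inv (K := L) y
    set g : F := f * (y⁻¹) ^ a with hg
    have hgO : g ∈ O' := O'.mul_mem hfO (O'.pow_mem hyi a)
    have h1 : IsIntegralOver L y⁻¹ g := by
      refine isIntegralOver_of_forall_place y⁻¹ (transcendental_inv hy) (fun v hv => ?_)
      rw [Place.ord_inv] at hv
      have hv' : v.ord y ≤ 0 := by linarith
      have h2 := hf v
      rw [min_eq_left hv'] at h2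
      rcases eq_or_ne f 0 with rfl | hf0
      · rw [hg, zero_mul, Place.ord_zero]
      · rw [hg, v.ord_mul hf0 (pow_ne_zero _ (inv_ne_zero hy0)), Cech.ord_pow, Place.ord_inv]
        linarith
    have h3 := hint' g hgO h1
    have hQ' : 0 ≤ Q.ord (D.redF y⁻¹) := by
      rw [D.redF_inv hyb, Place.ord_inv]
      linarith
    have h4 := ord_nonneg_of_isIntegralOver Q hQ' h3
    have h5 : D.redF g = D.redF f * ((D.redF y)⁻¹) ^ a := by
      rw [hg, D.redF_mul (hO' _ hfO) (hO' _ (O'.pow_mem hyi a)), D.redF_pow (hO' _ hyi),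
        D.redF_inv hyb]
    rw [h5] at h4
    rcases eq_or_ne (D.redF f) 0 with h0 | h0
    · -- impossible unless trivial: `ord 0 = 0 ≥ a * negative`
      rw [h0, Place.ord_zero]
      exact mul_nonpos_of_nonneg_of_nonpos (Nat.cast_nonneg a) hQ.le
    · rw [Q.ord_mul h0 (pow_ne_zero _ (inv_ne_zero hyb)), Cech.ord_pow, Place.ord_inv] at h4
      linarith

/-- `ord (y - c)` in the two cases -/
theorem ord_sub_const_cases {K E : Type*} [Field K] [Field E] [Algebra K E] (v : Place K E)
    (y : E) (c : K) :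
    (v.ord y < 0 ∧ v.ord (y - algebraMap K E c) = v.ord y) ∨
      (0 ≤ v.ord y ∧ 0 ≤ v.ord (y - algebraMap K E c)) := by
  rcases lt_or_ge (v.ord y) 0 with h | h
  · exact Or.inl ⟨h, ord_sub_algebraMap_of_neg v h c⟩
  · refine Or.inr ⟨h, FF.ord_nonneg_of_mem v ?_⟩
    exact sub_mem (FF.mem_of_ord_nonneg v h) (v.algebraMap_mem' c)

/-- **(CHART), abstract form**: `f ∈ L(a • polar(y) + b • zeros(y - c₀)) ∩ O'` reduces into
`L(a • polar(ȳ) + b • zeros(ȳ - c̄₀))`. -/
theorem redF_mem_chart [CharZero L] [HasPrincipalDivisors L F] [HasPrincipalDivisors k Fk]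
    (D : GaussDatum A F Fk) (O' : Subring F)
    (hO' : ∀ f ∈ O', f ∈ D.O) (hconst : ∀ c : A, algebraMap L F (c : L) ∈ O')
    (y : F) [FiniteDimensional L⟮y⟯ F] (hy : Transcendental L y)
    (hyO : y ∈ O') (hyi : y⁻¹ ∈ O')
    (hint : RedIntegralOn D O' y) (hint' : RedIntegralOn D O' y⁻¹)
    (c₀ : A) (hyc : D.redF y - algebraMap k Fk (IsLocalRing.residue A c₀) ≠ 0)
    (a b : ℕ) {f : F} (hfO : f ∈ O')
    (hf : f ∈ riemannRochSpace ((a : ℤ) • polesOf (K := L) y +
      (b : ℤ) • zerosOf (K := L) (y - algebraMap L F (c₀ : L)))) :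
    D.redF f ∈ riemannRochSpace ((a : ℤ) • polesOf (K := k) (D.redF y) +
      (b : ℤ) • zerosOf (K := k) (D.redF y - algebraMap k Fk (IsLocalRing.residue A c₀))) := by
  set w : F := y - algebraMap L F (c₀ : L) with hw
  set wb : Fk := D.redF y - algebraMap k Fk (IsLocalRing.residue A c₀) with hwb
  have hwO : w ∈ O' := O'.sub_mem hyO (hconst c₀)
  have hw0 : w ≠ 0 := by
    intro h
    apply hy
    rw [sub_eq_zero.1 h]
    exact isAlgebraic_algebraMap _
  have hredw : D.redF w = wb := by
    rw [hw, D.redF_sub (hO' _ hyO) (hO' _ (hconst c₀)), D.redF_algebraMap]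
  -- the auxiliary function
  set f' : F := f * w ^ b with hf'
  have hf'O : f' ∈ O' := O'.mul_mem hfO (O'.pow_mem hwO b)
  have hf'ord : ∀ v : Place L F, ((a + b : ℕ) : ℤ) * min (v.ord y) 0 ≤ v.ord f' := by
    intro v
    rcases eq_or_ne f 0 with rfl | hf0
    · rw [hf', zero_mul, Place.ord_zero]
      exact mul_nonpos_of_nonneg_of_nonpos (Nat.cast_nonneg _) (min_le_right _ _)
    have h1 := (mem_riemannRochSpace_iff.1 hf v).resolve_left hf0
    rw [Finsupp.add_apply, Finsupp.smul_apply, Finsupp.smul_apply, polesOf_apply, zerosOf_apply,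
      smul_eq_mul, smul_eq_mul] at h1
    rw [hf', v.ord_mul hf0 (pow_ne_zero _ hw0), Cech.ord_pow]
    push_cast
    rcases ord_sub_const_cases v y (c₀ : L) with ⟨h2, h3⟩ | ⟨h2, h3⟩
    · rw [← hw] at h3
      rw [h3, max_eq_left (by linarith), max_eq_right (by linarith)] at h1
      rw [min_eq_left h2.le, h3]
      linarith
    · rw [← hw] at h3
      rw [max_eq_right (by linarith), max_eq_left h3] at h1
      rw [min_eq_right h2]
      linarith
  have key := fun Q => ord_redF_ge_of_mem_polar D O' hO' y hy hyO hyi hint hint' (a + b) hf'O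
    hf'ord Q
  have hredf' : D.redF f' = D.redF f * wb ^ b := by
    rw [hf', D.redF_mul (hO' _ hfO) (hO' _ (O'.pow_mem hwO b)), D.redF_pow (hO' _ hwO), hredw]
  rw [mem_riemannRochSpace_iff]
  intro Q
  rcases eq_or_ne (D.redF f) 0 with h0 | h0
  · exact Or.inl h0
  right
  have h1 := key Q
  rw [hredf', Q.ord_mul h0 (pow_ne_zero _ hyc), Cech.ord_pow] at h1
  push_cast at h1
  rw [Finsupp.add_apply, Finsupp.smul_apply, Finsupp.smul_apply, polesOf_apply, zerosOf_apply,
    smul_eq_mul, smul_eq_mul]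
  rcases ord_sub_const_cases Q (D.redF y) (IsLocalRing.residue A c₀) with ⟨h2, h3⟩ | ⟨h2, h3⟩
  · rw [← hwb] at h3
    rw [min_eq_left h2.le, h3] at h1
    rw [h3, max_eq_left (by linarith), max_eq_right (by linarith)]
    linarith
  · rw [← hwb] at h3
    rw [min_eq_right h2] at h1
    rw [max_eq_right (by linarith), max_eq_left h3]
    linarith

end Fermat.Agent.LSb.Old
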