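/-
LSb / Old / ChartS  (helper7)

**(CHART) for a sup-norm frame.**  On top of helper2's `Frame/Main.lean`, `Frame/Integral.lean`:
* (helper2's `Frame/Inv.lean`: a sup-norm frame `(y, θ)` gives the frame `(y⁻¹, θ)`);
* `redIntegralOn_of_frame` : reduction preserves integrality over `L[y]` on `O₁ ∩ O₂`;
* `chart_of_frame` : `f ∈ L(a (y)_∞ + b (y - c₀)_0) ∩ O₁ ∩ O₂ ⟹
  red_i f ∈ L(a (red_i y)_∞ + b (red_i y - c̄₀)_0)`, `i = 1, 2`
  — the fields `chart₁`, `chart₂` of `NodalCtx`.
-/
import Fermat.Agent.LSb.Old.Chart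
import Fermat.Agent.LSb.Frame.Integral
import Fermat.Agent.LSb.Frame.Inv

set_option autoImplicit false
set_option linter.unusedSectionVars false
set_option linter.unusedVariables false
set_option linter.style.haveILetI false

noncomputable section

namespace Fermat.Agent.LSb.Old

open AlgebraicCurve IntermediateField Polynomial Fermat.Agent.ProgramR Fermat.Agent.S18lib
open Fermat.Agent.LSb.Frame

variable {L : Type*} [Field L] {A : ValuationSubring L}
variable {F : Type*} [Field F] [Algebra L F]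
variable {Fk1 : Type*} [Field Fk1] [Algebra (IsLocalRing.ResidueField A) Fk1]
variable {Fk2 : Type*} [Field Fk2] [Algebra (IsLocalRing.ResidueField A) Fk2]

local notation "k" => IsLocalRing.ResidueField A

variable {D1 : GaussDatum A F Fk1} {D2 : GaussDatum A F Fk2} {y : F} {n : ℕ} {θ : Fin n → F}

/-- reduction preserves integrality over `L[y]` on the sup-norm ball (helper2's
`IsFrameFamilyS.isIntegralElem_red` in the form used by `redF_mem_chart`) -/
theorem redIntegralOn_of_frame (h : IsFrameFamilyS D1 D2 y θ) :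
    RedIntegralOn D1 (supO D1 D2) y ∧ RedIntegralOn D2 (supO D1 D2) y := by
  have key : ∀ f : F, f ∈ supO D1 D2 → IsIntegralOver L y f →
      IsIntegral (Algebra.adjoin L {y}) f := by
    intro f hf hint
    exact isIntegral_adjoin_of_isIntegralOver hint
  refine ⟨fun f hf hint => ?_, fun f hf hint => ?_⟩
  · obtain ⟨P, hP, h0⟩ := (h.isIntegralElem_red hf (key f hf hint)).1
    exact ⟨P, hP, h0⟩
  · obtain ⟨P, hP, h0⟩ := (h.isIntegralElem_red hf (key f hf hint)).2
    exact ⟨P, hP, h0⟩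

/-- **(CHART) for a sup-norm frame**: the fields `chart₁`, `chart₂` of `NodalCtx` for
`P₁ = (y)_∞`, `P₂ = (y - c₀)_0`, `Q₁ᵢ = (red_i y)_∞`, `Q₂ᵢ = (red_i y - c̄₀)_0`. -/
theorem chart_of_frame [CharZero L] [HasPrincipalDivisors L F] [HasPrincipalDivisors k Fk1]
    [HasPrincipalDivisors k Fk2] [FiniteDimensional L⟮y⟯ F]
    (h : IsFrameFamilyS D1 D2 y θ) (c₀ : A)
    (a b : ℕ) {f : F} (hf1 : f ∈ D1.O) (hf2 : f ∈ D2.O)
    (hf : f ∈ riemannRochSpace ((a : ℤ) • polesOf (K := L) y +
      (b : ℤ) • zerosOf (K := L) (y - algebraMap L F (c₀ : L)))) :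
    D1.redF f ∈ riemannRochSpace ((a : ℤ) • polesOf (K := k) (D1.redF y) +
      (b : ℤ) • zerosOf (K := k) (D1.redF y - algebraMap k Fk1 (IsLocalRing.residue A c₀))) ∧
    D2.redF f ∈ riemannRochSpace ((a : ℤ) • polesOf (K := k) (D2.redF y) +
      (b : ℤ) • zerosOf (K := k) (D2.redF y - algebraMap k Fk2 (IsLocalRing.residue A c₀))) := by
  have hfO : f ∈ supO D1 D2 := mem_supO.2 ⟨hf1, hf2⟩
  have hconst : ∀ c : A, algebraMap L F (c : L) ∈ supO D1 D2 := fun c =>
    mem_supO.2 ⟨D1.algebraMap_mem c, D2.algebraMap_mem c⟩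
  have hI := redIntegralOn_of_frame h
  have hI' := redIntegralOn_of_frame h.inv
  have hyi := h.inv_mem
  have hnc1 : D1.redF y - algebraMap k Fk1 (IsLocalRing.residue A c₀) ≠ 0 := by
    intro h0
    apply h.trans1
    rw [sub_eq_zero.1 h0]
    exact isAlgebraic_algebraMap _
  have hnc2 : D2.redF y - algebraMap k Fk2 (IsLocalRing.residue A c₀) ≠ 0 := by
    intro h0
    apply h.trans2
    rw [sub_eq_zero.1 h0]
    exact isAlgebraic_algebraMap _
  exact ⟨redF_mem_chart D1 (supO D1 D2) (fun f hf => (mem_supO.1 hf).1) hconst y h.transcendental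
      h.y_mem hyi hI.1 hI'.1 c₀ hnc1 a b hfO hf,
    redF_mem_chart D2 (supO D1 D2) (fun f hf => (mem_supO.1 hf).2) hconst y h.transcendental
      h.y_mem hyi hI.2 hI'.2 c₀ hnc2 a b hfO hf⟩

end Fermat.Agent.LSb.Old
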