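/-
LSb / Old / Fields  (helper7)

The "easy" fields of `NodalCtx` for a chart datum
`P₁ = (y)_∞`, `P₂ = (y - c₀)_0`, `Q₁ᵢ = (ȳᵢ)_∞`, `Q₂ᵢ = (ȳᵢ - c̄₀)_0`:

* abstract: disjointness of supports, `deg (y - c)_0 = deg (y)_∞`, `(x ^ n)_∞ = n (x)_∞`;
* modular (`F = FBar (M * q)`, `y = j`): `red₁ j = j̄`, `red₂ j = j̄ ^ q`,
  `deg (j)_∞ = ψ(M q)`, `deg (j̄)_∞ = ψ(M)`, `deg (j̄ ^ q)_∞ = q ψ(M)`, hence
  `deg Q₁₁ + deg Q₁₂ = deg P₁` and `deg Q₂₁ + deg Q₂₂ = deg P₂`; rank one.
-/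
import Fermat.Agent.LSb.Old.Lift
import Fermat.Agent.LSb.Old.Chart
import Fermat.Agent.S37lib.ConjNorm.Kronecker
import Fermat.Agent.ProgramR.Counting.Psi
import Fermat.Agent.S18lib.Asm.RankOne

set_option autoImplicit false
set_option linter.unusedSectionVars false
set_option linter.unusedVariables false
set_option linter.style.haveILetI false

noncomputable section

namespace Fermat.Agent.LSb.Old

open AlgebraicCurve ModularCurve HahnSeries IntermediateField Polynomial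
open Fermat.Agent.ProgramR Fermat.Agent.S18lib

/-! ### abstract facts on pole and zero divisors -/

section Abstract

variable {K E : Type*} [Field K] [Field E] [Algebra K E] [HasPrincipalDivisors K E]

/-- the supports of `(y)_∞` and `(y - c)_0` are disjoint -/
theorem disjoint_support_polesOf_zerosOf_sub (y : E) (c : K) :
    Disjoint (polesOf (K := K) y).support (zerosOf (K := K) (y - algebraMap K E c)).support := by
  rw [Finset.disjoint_left]
  intro P hP hP'
  rw [Finsupp.mem_support_iff, polesOf_apply] at hP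
  rw [Finsupp.mem_support_iff, zerosOf_apply] at hP'
  rcases ord_sub_const_cases P y c with ⟨h1, h2⟩ | ⟨h1, h2⟩
  · apply hP'
    rw [h2, max_eq_right h1.le]
  · apply hP
    rw [max_eq_right (by linarith)]

/-- `deg (w)_0 = deg (w)_∞` -/
theorem degree_zerosOf_eq_degree_polesOf (w : E) :
    Divisor.degree (zerosOf (K := K) w) = Divisor.degree (polesOf (K := K) w) := by
  have h := congrArg Divisor.degree (zerosOf_sub_polesOf (K := K) w)
  rw [map_sub, degree_divOf] at h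
  linarith

/-- `deg (y - c)_0 = deg (y)_∞` -/
theorem degree_zerosOf_sub_const (y : E) (c : K) :
    Divisor.degree (zerosOf (K := K) (y - algebraMap K E c)) =
      Divisor.degree (polesOf (K := K) y) := by
  rw [degree_zerosOf_eq_degree_polesOf, polesOf_sub_algebraMap]

/-- `(x ^ n)_∞ = n (x)_∞` -/
theorem polesOf_pow (x : E) (n : ℕ) :
    polesOf (K := K) (x ^ n) = (n : ℤ) • polesOf (K := K) x := by
  ext P
  rw [Finsupp.smul_apply, smul_eq_mul, polesOf_apply, polesOf_apply, Cech.ord_pow]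
  rcases le_total (P.ord x) 0 with h | h
  · rw [max_eq_left (by nlinarith [Nat.cast_nonneg (α := ℤ) n]),
      max_eq_left (by linarith)]
    ring
  · rw [max_eq_right (by nlinarith [Nat.cast_nonneg (α := ℤ) n]),
      max_eq_right (by linarith), mul_zero]

theorem degree_polesOf_pow (x : E) (n : ℕ) :
    Divisor.degree (polesOf (K := K) (x ^ n)) = n * Divisor.degree (polesOf (K := K) x) := by
  rw [polesOf_pow, map_zsmul, smul_eq_mul]

end Abstract

/-! ### the modular chart -/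

local notation "Qb" => AlgebraicClosure ℚ

variable {M q : ℕ} [NeZero M] [NeZero q] [hq : Fact q.Prime]
variable {A : ValuationSubring (AlgebraicClosure ℚ)}

local notation "kA" => IsLocalRing.ResidueField A

variable {D1 D2 : GaussDatum A (FBar (M * q)) (FRes A M)} {wq : FBar (M * q) →+* FBar (M * q)}

/-- `red₁ j = j̄` -/
theorem redF_jF₁ (hqM : ¬ q ∣ M) (hA : A.LiesOverPrime q) (h1 : IsGaussOne D1) :
    D1.redF (Gin0.jF (M * q)) = Gink.jK A M := by
  rw [← alpha_jF, redF_alpha hqM hA h1, V.gaussDatum_redF_jF]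

/-- `Vq j̄ = j̄ ^ q` -/
theorem Vq_jK (hA : A.LiesOverPrime q) : Vq M q A hA (Gink.jK A M) = Gink.jK A M ^ q := by
  haveI := charP_kRes hA
  apply Subtype.ext
  rw [coe_Vq, Gink.coe_jK]
  show _ = ((Gink.jK A M : FRes A M) : LaurentSeries kA) ^ q
  rw [Gink.coe_jK, S37lib.ConjNorm.jqModC_pow_char]

/-- `red₂ j = j̄ ^ q` -/
theorem redF_jF₂ (hqM : ¬ q ∣ M) (hA : A.LiesOverPrime q) (h1 : IsGaussOne D1)
    (h2 : IsGaussTwo D1 D2 wq) : D2.redF (Gin0.jF (M * q)) = Gink.jK A M ^ q := by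
  rw [← alpha_jF, redF_alpha₂ hqM hA h1 h2, V.gaussDatum_redF_jF, Vq_jK]

/-- `deg (j)_∞ = ψ(N)` -/
theorem degree_polesOf_jF (N : ℕ) [NeZero N] [HasPrincipalDivisors Qb (FBar N)] :
    Divisor.degree (polesOf (K := Qb) (Gin0.jF N)) = (dedekindPsi N : ℤ) := by
  rw [polesOf_eq_poleDiv, Gin0.degree_poleDiv_jF]

/-- `deg (j̄)_∞ = ψ(M)` -/
theorem degree_polesOf_jK (hqM : ¬ q ∣ M) (hA : A.LiesOverPrime q)
    [HasPrincipalDivisors Qb (FBar M)] [HasPrincipalDivisors kA (FRes A M)] :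
    Divisor.degree (polesOf (K := kA) (Gink.jK A M)) = (dedekindPsi M : ℤ) := by
  rw [← V.gaussDatum_redF_jF M A hqM hA, ← V.degree_polesOf_jF_eq M A hqM hA, degree_polesOf_jF]

/-- **`deg Q₁₁ + deg Q₁₂ = deg P₁`** : `ψ(M) + q ψ(M) = ψ(M q)` -/
theorem degree_polesOf_add (hqM : ¬ q ∣ M) (hA : A.LiesOverPrime q) (h1 : IsGaussOne D1)
    (h2 : IsGaussTwo D1 D2 wq)
    [HasPrincipalDivisors Qb (FBar M)] [HasPrincipalDivisors Qb (FBar (M * q))]
    [HasPrincipalDivisors kA (FRes A M)] :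
    Divisor.degree (polesOf (K := kA) (D1.redF (Gin0.jF (M * q)))) +
      Divisor.degree (polesOf (K := kA) (D2.redF (Gin0.jF (M * q)))) =
      Divisor.degree (polesOf (K := Qb) (Gin0.jF (M * q))) := by
  haveI : NeZero (M * q) := ⟨Nat.mul_ne_zero (NeZero.ne M) (NeZero.ne q)⟩
  rw [redF_jF₁ hqM hA h1, redF_jF₂ hqM hA h1 h2, degree_polesOf_pow, degree_polesOf_jK hqM hA,
    degree_polesOf_jF, Fermat.Agent.ProgramR.dedekindPsi_mul_prime_of_not_dvd (NeZero.ne M) hq.out hqM]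
  push_cast
  ring

/-- **`deg Q₂₁ + deg Q₂₂ = deg P₂`** -/
theorem degree_zerosOf_add (hqM : ¬ q ∣ M) (hA : A.LiesOverPrime q) (h1 : IsGaussOne D1)
    (h2 : IsGaussTwo D1 D2 wq)
    [HasPrincipalDivisors Qb (FBar M)] [HasPrincipalDivisors Qb (FBar (M * q))]
    [HasPrincipalDivisors kA (FRes A M)] (c₀ : A) :
    Divisor.degree (zerosOf (K := kA) (D1.redF (Gin0.jF (M * q)) -
        algebraMap kA (FRes A M) (IsLocalRing.residue A c₀))) +
      Divisor.degree (zerosOf (K := kA) (D2.redF (Gin0.jF (M * q)) -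
        algebraMap kA (FRes A M) (IsLocalRing.residue A c₀))) =
      Divisor.degree (zerosOf (K := Qb) (Gin0.jF (M * q) -
        algebraMap Qb (FBar (M * q)) (c₀ : Qb))) := by
  rw [degree_zerosOf_sub_const, degree_zerosOf_sub_const, degree_zerosOf_sub_const,
    degree_polesOf_add hqM hA h1 h2]

/-- `0 < deg Q₁₁` -/
theorem degree_polesOf_redF₁_pos (hqM : ¬ q ∣ M) (hA : A.LiesOverPrime q) (h1 : IsGaussOne D1)
    [HasPrincipalDivisors Qb (FBar M)] [HasPrincipalDivisors kA (FRes A M)] :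
    0 < Divisor.degree (polesOf (K := kA) (D1.redF (Gin0.jF (M * q)))) := by
  rw [redF_jF₁ hqM hA h1, degree_polesOf_jK hqM hA]
  exact_mod_cast BarField.dedekindPsi_pos M

/-- `0 < deg Q₁₂` -/
theorem degree_polesOf_redF₂_pos (hqM : ¬ q ∣ M) (hA : A.LiesOverPrime q) (h1 : IsGaussOne D1)
    (h2 : IsGaussTwo D1 D2 wq)
    [HasPrincipalDivisors Qb (FBar M)] [HasPrincipalDivisors kA (FRes A M)] :
    0 < Divisor.degree (polesOf (K := kA) (D2.redF (Gin0.jF (M * q)))) := by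
  rw [redF_jF₂ hqM hA h1 h2, degree_polesOf_pow, degree_polesOf_jK hqM hA]
  have h3 : 0 < dedekindPsi M := BarField.dedekindPsi_pos M
  have h4 : 0 < q := hq.out.pos
  positivity

/-- rank one, in the shape of `NodalCtx.rankOne` -/
theorem rankOne (hA : A.LiesOverPrime q) :
    ∀ c : A, c ∈ IsLocalRing.maximalIdeal A → ∀ d : A, d ≠ 0 → ∃ n : ℕ, ¬ c ^ n ∣ d :=
  rankOne_of_liesOverPrime A hA

end Fermat.Agent.LSb.Old
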