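/-
LSb / Old / CtxFields  (helper7)

The fields of `NodalCtx` owned by helper7, for the modular chart datum
`Unit.chartDatum D1 D2 (Gin0.jF (M * q)) c₀ s x₁ x₂` (helper4's `LSb/Unit/Datum.lean`):
`P/Q` nonnegativity and disjointness, positivity of the four chart degrees, `deg_Q₁_le`,
`deg_Q₂_le`, `rankOne`, and (CHART) `chart₁`, `chart₂` from a sup-norm frame `(j, θ)`.
-/
import Fermat.Agent.LSb.Old.Fields
import Fermat.Agent.LSb.Old.ChartS
import Fermat.Agent.LSb.Unit.Datum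

set_option autoImplicit false
set_option linter.unusedSectionVars false
set_option linter.unusedVariables false
set_option linter.style.haveILetI false

noncomputable section

namespace Fermat.Agent.LSb.Old

open AlgebraicCurve ModularCurve IntermediateField Polynomial
open Fermat.Agent.ProgramR Fermat.Agent.S18lib Fermat.Agent.LSb.Frame Fermat.Agent.LSb.Unit

local notation "Qb" => AlgebraicClosure ℚ

/-! ### abstract chart datum -/

section Abstract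

variable {L : Type*} [Field L] {A : ValuationSubring L}
variable {F : Type*} [Field F] [Algebra L F]
variable {F₁ F₂ : Type*} [Field F₁] [Field F₂]
variable [Algebra (IsLocalRing.ResidueField A) F₁] [Algebra (IsLocalRing.ResidueField A) F₂]
variable [HasPrincipalDivisors L F] [HasPrincipalDivisors (IsLocalRing.ResidueField A) F₁]
variable [HasPrincipalDivisors (IsLocalRing.ResidueField A) F₂]

local notation "k" => IsLocalRing.ResidueField A

variable (D1 : GaussDatum A F F₁) (D2 : GaussDatum A F F₂) (y : F) (c₀ : A) (s : ℕ)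
    (x₁ : Fin s → Place (IsLocalRing.ResidueField A) F₁)
    (x₂ : Fin s → Place (IsLocalRing.ResidueField A) F₂)

theorem chartDatum_P₁_nonneg : 0 ≤ (chartDatum D1 D2 y c₀ s x₁ x₂).P₁ := polesOf_nonneg _

theorem chartDatum_P₂_nonneg : 0 ≤ (chartDatum D1 D2 y c₀ s x₁ x₂).P₂ := zerosOf_nonneg _

theorem chartDatum_P_disjoint :
    Disjoint (chartDatum D1 D2 y c₀ s x₁ x₂).P₁.support
      (chartDatum D1 D2 y c₀ s x₁ x₂).P₂.support :=
  disjoint_support_polesOf_zerosOf_sub y (c₀ : L)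

theorem chartDatum_Q₁₁_nonneg : 0 ≤ (chartDatum D1 D2 y c₀ s x₁ x₂).Q₁₁ := polesOf_nonneg _

theorem chartDatum_Q₂₁_nonneg : 0 ≤ (chartDatum D1 D2 y c₀ s x₁ x₂).Q₂₁ := zerosOf_nonneg _

theorem chartDatum_Q₁₂_nonneg : 0 ≤ (chartDatum D1 D2 y c₀ s x₁ x₂).Q₁₂ := polesOf_nonneg _

theorem chartDatum_Q₂₂_nonneg : 0 ≤ (chartDatum D1 D2 y c₀ s x₁ x₂).Q₂₂ := zerosOf_nonneg _

theorem chartDatum_Q₁_disjoint :
    Disjoint (chartDatum D1 D2 y c₀ s x₁ x₂).Q₁₁.support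
      (chartDatum D1 D2 y c₀ s x₁ x₂).Q₂₁.support :=
  disjoint_support_polesOf_zerosOf_sub (D1.redF y) (IsLocalRing.residue A c₀)

theorem chartDatum_Q₂_disjoint :
    Disjoint (chartDatum D1 D2 y c₀ s x₁ x₂).Q₁₂.support
      (chartDatum D1 D2 y c₀ s x₁ x₂).Q₂₂.support :=
  disjoint_support_polesOf_zerosOf_sub (D2.redF y) (IsLocalRing.residue A c₀)

/-- the second chart has the same degree as the first one -/
theorem chartDatum_degree_Q₂₁ :
    Divisor.degree (chartDatum D1 D2 y c₀ s x₁ x₂).Q₂₁ =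
      Divisor.degree (chartDatum D1 D2 y c₀ s x₁ x₂).Q₁₁ :=
  degree_zerosOf_sub_const (D1.redF y) (IsLocalRing.residue A c₀)

theorem chartDatum_degree_Q₂₂ :
    Divisor.degree (chartDatum D1 D2 y c₀ s x₁ x₂).Q₂₂ =
      Divisor.degree (chartDatum D1 D2 y c₀ s x₁ x₂).Q₁₂ :=
  degree_zerosOf_sub_const (D2.redF y) (IsLocalRing.residue A c₀)

theorem chartDatum_degree_P₂ :
    Divisor.degree (chartDatum D1 D2 y c₀ s x₁ x₂).P₂ =
      Divisor.degree (chartDatum D1 D2 y c₀ s x₁ x₂).P₁ :=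
  degree_zerosOf_sub_const y (c₀ : L)

variable {D1 D2 y}

/-- **(CHART)** `chart₁` and `chart₂` for the chart datum, from a sup-norm frame `(y, θ)` -/
theorem chartDatum_chart [CharZero L] [FiniteDimensional L⟮y⟯ F] {n : ℕ} {θ : Fin n → F}
    (h : IsFrameFamilyS D1 D2 y θ) (a b : ℕ) (f : F)
    (hf : f ∈ riemannRochSpace ((chartDatum D1 D2 y c₀ s x₁ x₂).chartDiv a b))
    (hf1 : f ∈ (chartDatum D1 D2 y c₀ s x₁ x₂).V₁.O)
    (hf2 : f ∈ (chartDatum D1 D2 y c₀ s x₁ x₂).V₂.O) :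
    (chartDatum D1 D2 y c₀ s x₁ x₂).V₁.redF f ∈
        riemannRochSpace ((chartDatum D1 D2 y c₀ s x₁ x₂).chartDiv₁ a b) ∧
      (chartDatum D1 D2 y c₀ s x₁ x₂).V₂.redF f ∈
        riemannRochSpace ((chartDatum D1 D2 y c₀ s x₁ x₂).chartDiv₂ a b) :=
  chart_of_frame h c₀ a b hf1 hf2 hf

end Abstract

/-! ### the modular chart datum -/

section Modular

variable {M q : ℕ} [NeZero M] [NeZero q] [hq : Fact q.Prime]
variable {A : ValuationSubring (AlgebraicClosure ℚ)}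

variable {D1 D2 : GaussDatum A (FBar (M * q)) (FRes A M)} {wq : FBar (M * q) →+* FBar (M * q)}
variable [HasPrincipalDivisors Qb (FBar M)] [HasPrincipalDivisors Qb (FBar (M * q))]
variable [HasPrincipalDivisors (IsLocalRing.ResidueField A) (FRes A M)]
variable (c₀ : A) (s : ℕ) (x₁ x₂ : Fin s → Place (IsLocalRing.ResidueField A) (FRes A M))

theorem modular_deg_Q₁₁_pos (hqM : ¬ q ∣ M) (hA : A.LiesOverPrime q) (h1 : IsGaussOne D1) :
    0 < Divisor.degree (chartDatum D1 D2 (Gin0.jF (M * q)) c₀ s x₁ x₂).Q₁₁ :=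
  degree_polesOf_redF₁_pos hqM hA h1

theorem modular_deg_Q₁₂_pos (hqM : ¬ q ∣ M) (hA : A.LiesOverPrime q) (h1 : IsGaussOne D1)
    (h2 : IsGaussTwo D1 D2 wq) :
    0 < Divisor.degree (chartDatum D1 D2 (Gin0.jF (M * q)) c₀ s x₁ x₂).Q₁₂ :=
  degree_polesOf_redF₂_pos hqM hA h1 h2

theorem modular_deg_Q₂₁_pos (hqM : ¬ q ∣ M) (hA : A.LiesOverPrime q) (h1 : IsGaussOne D1) :
    0 < Divisor.degree (chartDatum D1 D2 (Gin0.jF (M * q)) c₀ s x₁ x₂).Q₂₁ := by
  rw [chartDatum_degree_Q₂₁]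
  exact modular_deg_Q₁₁_pos c₀ s x₁ x₂ hqM hA h1

theorem modular_deg_Q₂₂_pos (hqM : ¬ q ∣ M) (hA : A.LiesOverPrime q) (h1 : IsGaussOne D1)
    (h2 : IsGaussTwo D1 D2 wq) :
    0 < Divisor.degree (chartDatum D1 D2 (Gin0.jF (M * q)) c₀ s x₁ x₂).Q₂₂ := by
  rw [chartDatum_degree_Q₂₂]
  exact modular_deg_Q₁₂_pos c₀ s x₁ x₂ hqM hA h1 h2

/-- `deg_Q₁_le` (an equality: `ψ(M) + q ψ(M) = ψ(M q)`) -/
theorem modular_deg_Q₁_le (hqM : ¬ q ∣ M) (hA : A.LiesOverPrime q) (h1 : IsGaussOne D1)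
    (h2 : IsGaussTwo D1 D2 wq) :
    Divisor.degree (chartDatum D1 D2 (Gin0.jF (M * q)) c₀ s x₁ x₂).Q₁₁ +
      Divisor.degree (chartDatum D1 D2 (Gin0.jF (M * q)) c₀ s x₁ x₂).Q₁₂ ≤
      Divisor.degree (chartDatum D1 D2 (Gin0.jF (M * q)) c₀ s x₁ x₂).P₁ :=
  le_of_eq (degree_polesOf_add hqM hA h1 h2)

/-- `deg_Q₂_le` -/
theorem modular_deg_Q₂_le (hqM : ¬ q ∣ M) (hA : A.LiesOverPrime q) (h1 : IsGaussOne D1)
    (h2 : IsGaussTwo D1 D2 wq) :
    Divisor.degree (chartDatum D1 D2 (Gin0.jF (M * q)) c₀ s x₁ x₂).Q₂₁ +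
      Divisor.degree (chartDatum D1 D2 (Gin0.jF (M * q)) c₀ s x₁ x₂).Q₂₂ ≤
      Divisor.degree (chartDatum D1 D2 (Gin0.jF (M * q)) c₀ s x₁ x₂).P₂ :=
  le_of_eq (degree_zerosOf_add hqM hA h1 h2 c₀)

/-- **(CHART)** for the modular chart datum, from the sup-norm frame of brick B3 -/
theorem modular_chart {n : ℕ} {θ : Fin n → FBar (M * q)}
    (h : IsFrameFamilyS D1 D2 (Gin0.jF (M * q)) θ) (a b : ℕ) (f : FBar (M * q))
    (hf : f ∈ riemannRochSpace
      ((chartDatum D1 D2 (Gin0.jF (M * q)) c₀ s x₁ x₂).chartDiv a b))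
    (hf1 : f ∈ D1.O) (hf2 : f ∈ D2.O) :
    D1.redF f ∈ riemannRochSpace
        ((chartDatum D1 D2 (Gin0.jF (M * q)) c₀ s x₁ x₂).chartDiv₁ a b) ∧
      D2.redF f ∈ riemannRochSpace
        ((chartDatum D1 D2 (Gin0.jF (M * q)) c₀ s x₁ x₂).chartDiv₂ a b) := by
  haveI : NeZero (M * q) := ⟨Nat.mul_ne_zero (NeZero.ne M) (NeZero.ne q)⟩
  exact chartDatum_chart c₀ s x₁ x₂ h a b f hf hf1 hf2

end Modular

end Fermat.Agent.LSb.Old
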